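import Fermat.Agent.H13.Cft.Tools

/-!
# P-CFT / FRAME / FR-SHAP (sub-lead helper97): Shapiro block for level cohomology — definitions

* `mapLvl k 𝒰 A₀`   : the `G`-module of level-constant functions `G → A₀`, right translation;
* `mapLvlEmb`       : the embedding `A ↪ Maplvl(G, A)`, `a ↦ (g ↦ g a)`, for smooth `A`;
* `lvlConj`         : conjugation by `g` on the level complex;
* `mackeySubgroup`, `mackeyLoc`, `mackeyEval`, `mackeyMap` : the local Mackey maps;
* `coindPairing`    : the pointwise pairing `Coind A × Coind B → Coind C`.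
-/

set_option autoImplicit false

universe u

open CategoryTheory groupCohomology

namespace Fermat.Agent.H97.Shap

open Fermat.Agent.H13.Cft

variable {k G : Type u} [CommRing k] [Group G]

/-! ### Level-constant functions -/

section MapLvl

variable (k) (𝒰 : LevelSys G) (A₀ : Type u) [AddCommGroup A₀] [Module k A₀]

/-- The level-constant functions `G → A₀`: right-invariant under some level (equivalently
left-invariant, the levels being normal). -/
def mapLvlV : Submodule k (G → A₀) where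
  carrier := {f | ∃ N ∈ 𝒰.sets, ∀ (g : G), ∀ s ∈ N, f (g * s) = f g}
  add_mem' := by
    rintro f f' ⟨N, hN, hf⟩ ⟨N', hN', hf'⟩
    obtain ⟨N'', hN'', hle⟩ := 𝒰.directed N hN N' hN'
    refine ⟨N'', hN'', fun g s hs => ?_⟩
    simp only [Pi.add_apply, hf g s (hle.trans inf_le_left hs),
      hf' g s (hle.trans inf_le_right hs)]
  zero_mem' := by
    obtain ⟨N, hN⟩ := 𝒰.nonempty
    exact ⟨N, hN, fun _ _ _ => rfl⟩
  smul_mem' := by
    rintro c f ⟨N, hN, hf⟩
    exact ⟨N, hN, fun g s hs => by simp only [Pi.smul_apply, hf g s hs]⟩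

variable {k 𝒰 A₀} in
lemma mem_mapLvlV {f : G → A₀} :
    f ∈ mapLvlV k 𝒰 A₀ ↔ ∃ N ∈ 𝒰.sets, ∀ (g : G), ∀ s ∈ N, f (g * s) = f g := Iff.rfl

/-- Right translation on level-constant functions: `(h • f) x = f (x * h)`. -/
def mapLvlRep : Representation k G (mapLvlV k 𝒰 A₀) where
  toFun h := (LinearMap.funLeft k A₀ (· * h)).restrict fun f hf => by
    obtain ⟨N, hN, hf⟩ := hf
    have hnorm := 𝒰.normal N hN
    refine ⟨N, hN, fun g s hs => ?_⟩
    show f (g * s * h) = f (g * h)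
    have : g * s * h = g * h * (h⁻¹ * s * h⁻¹⁻¹) := by group
    rw [this]
    exact hf _ _ (hnorm.conj_mem s hs h⁻¹)
  map_one' := by
    ext f x
    simp
  map_mul' h h' := by
    ext f x
    simp [mul_assoc]

@[simp] lemma mapLvlRep_apply (h : G) (f : mapLvlV k 𝒰 A₀) (x : G) :
    (mapLvlRep k 𝒰 A₀ h f).1 x = f.1 (x * h) := rfl

/-- `Maplvl(G, A₀)` as an object of `Rep k G`. -/
noncomputable abbrev mapLvl : Rep.{u} k G := Rep.of (mapLvlRep k 𝒰 A₀)

end MapLvl

/-- The embedding `A ↪ Maplvl(G, A)`, `a ↦ (g ↦ g a)` of a smooth module. -/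
noncomputable def mapLvlEmb (𝒰 : LevelSys G) (A : Rep.{u} k G) (hA : IsSmooth 𝒰 A) :
    A ⟶ mapLvl k 𝒰 A.V :=
  Rep.ofHom ⟨
    { toFun := fun a => ⟨fun g => A.ρ g a, by
        obtain ⟨N, hN, ha⟩ := hA a
        exact ⟨N, hN, fun g s hs => by
          show A.ρ (g * s) a = A.ρ g a
          rw [map_mul, Module.End.mul_apply, ha s hs]⟩⟩
      map_add' := fun a b => by
        apply Subtype.ext; funext g; simp
      map_smul' := fun c a => by
        apply Subtype.ext; funext g; simp },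
    fun h => by
      ext a x
      show A.ρ x (A.ρ h a) = A.ρ (x * h) a
      rw [map_mul, Module.End.mul_apply]⟩

@[simp] lemma mapLvlEmb_apply (𝒰 : LevelSys G) (A : Rep.{u} k G) (hA : IsSmooth 𝒰 A) (a : A)
    (g : G) : ((mapLvlEmb 𝒰 A hA).hom a).1 g = A.ρ g a := rfl

/-! ### Conjugation -/

section Conj

/-- Conjugation `x ↦ g⁻¹ x g` as an endomorphism of `G`. -/
def conjInv (g : G) : G →* G := (MulAut.conj g⁻¹).toMonoidHom

@[simp] lemma conjInv_apply (g x : G) : conjInv g x = g⁻¹ * x * g := by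
  simp [conjInv]

lemma compat_conjInv (𝒰 : LevelSys G) (g : G) : 𝒰.Compat 𝒰 (conjInv g) := by
  intro N hN
  have := 𝒰.normal N hN
  refine ⟨N, hN, fun x hx => ?_⟩
  rw [Subgroup.mem_comap, conjInv_apply]
  simpa using this.conj_mem x hx g⁻¹

/-- The action of `g` as a morphism `Res_{conj} A ⟶ A`. -/
noncomputable def conjHom (g : G) (A : Rep.{u} k G) : Rep.res (conjInv g) A ⟶ A :=
  Rep.ofHom ⟨A.ρ g, fun x => by
    ext a
    show A.ρ g (A.ρ (conjInv g x) a) = A.ρ x (A.ρ g a)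
    rw [conjInv_apply, ← Module.End.mul_apply, ← Module.End.mul_apply, ← map_mul, ← map_mul]
    congr 2
    group⟩

/-- Conjugation by `g` on the level complex:
`(g * c)(x₁,…,xₙ) = g • c (g⁻¹ x₁ g, …, g⁻¹ xₙ g)`. -/
noncomputable def lvlConj (𝒰 : LevelSys G) (g : G) (A : Rep.{u} k G) :
    lvlComplex 𝒰 A ⟶ lvlComplex 𝒰 A :=
  lvlCochainsMap (conjInv g) (conjHom g A) (compat_conjInv 𝒰 g)

@[simp] lemma lvlConj_f_coe (𝒰 : LevelSys G) (g : G) (A : Rep.{u} k G) (n : ℕ)
    (c : lvlCochains 𝒰 A n) (x : Fin n → G) :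
    (((lvlConj 𝒰 g A).f n).hom c).1 x = A.ρ g (c.1 fun i => g⁻¹ * x i * g) := by
  show A.ρ g (c.1 (conjInv g ∘ x)) = _
  have : (conjInv g ∘ x) = fun i => g⁻¹ * x i * g := by
    funext i
    simp
  rw [this]

end Conj

/-! ### Local Mackey maps -/

section Mackey

variable {Γ : Type u} [Group Γ] (loc : Γ →* G) (U : Subgroup G) (g : G)

/-- `Γ_g = {γ | g loc(γ) g⁻¹ ∈ U}`. -/
def mackeySubgroup : Subgroup Γ where
  carrier := {γ | g * loc γ * g⁻¹ ∈ U}
  one_mem' := by simp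
  mul_mem' := by
    intro a b ha hb
    have : g * loc (a * b) * g⁻¹ = (g * loc a * g⁻¹) * (g * loc b * g⁻¹) := by
      rw [map_mul]; group
    simp only [Set.mem_ofPred_eq] at ha hb ⊢
    rw [this]
    exact U.mul_mem ha hb
  inv_mem' := by
    intro a ha
    have : g * loc a⁻¹ * g⁻¹ = (g * loc a * g⁻¹)⁻¹ := by
      rw [map_inv]; group
    simp only [Set.mem_ofPred_eq] at ha ⊢
    rw [this]
    exact U.inv_mem ha

lemma mem_mackeySubgroup {γ : Γ} : γ ∈ mackeySubgroup loc U g ↔ g * loc γ * g⁻¹ ∈ U := Iff.rfl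

/-- `loc_g : Γ_g → U`, `γ ↦ g loc(γ) g⁻¹`. -/
def mackeyLoc : mackeySubgroup loc U g →* U where
  toFun γ := ⟨g * loc γ.1 * g⁻¹, γ.2⟩
  map_one' := by
    apply Subtype.ext
    simp
  map_mul' a b := by
    apply Subtype.ext
    show g * loc (a.1 * b.1) * g⁻¹ = (g * loc a.1 * g⁻¹) * (g * loc b.1 * g⁻¹)
    rw [map_mul]; group

@[simp] lemma mackeyLoc_coe (γ : mackeySubgroup loc U g) :
    ((mackeyLoc loc U g γ : U) : G) = g * loc γ.1 * g⁻¹ := rfl

/-- Evaluation at `g` is `Γ_g`-equivariant `Res (Coind_U A) ⟶ Res_{loc_g} A`. -/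
noncomputable def mackeyEval (A : Rep.{u} k U) :
    Rep.res (mackeySubgroup loc U g).subtype (Rep.res loc (Rep.coind U.subtype A)) ⟶
      Rep.res (mackeyLoc loc U g) A :=
  Rep.ofHom ⟨LinearMap.proj g ∘ₗ (A.ρ.coindV U.subtype).subtype, fun γ => by
    ext x
    have h := x.2 (mackeyLoc loc U g γ) g
    show x.1 (g * loc γ.1) = A.ρ (mackeyLoc loc U g γ) (x.1 g)
    rw [← h]
    have : g * loc γ.1 = U.subtype (mackeyLoc loc U g γ) * g := by
      show g * loc γ.1 = g * loc γ.1 * g⁻¹ * g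
      group
    rw [this]⟩

/-- A subgroup of `Γ` containing `Γ ∩ loc⁻¹(N)` for a level `N ≤ U` contains a level. -/
lemma mackeySubgroup_open {𝒰 : LevelSys G} {𝒱 : LevelSys Γ} (hloc : 𝒱.Compat 𝒰 loc)
    (hU : ∃ N ∈ 𝒰.sets, N ≤ U) : ∃ N ∈ 𝒱.sets, N ≤ mackeySubgroup loc U g := by
  obtain ⟨N, hN, hNU⟩ := hU
  obtain ⟨N', hN', hle⟩ := hloc N hN
  have := 𝒰.normal N hN
  refine ⟨N', hN', fun γ hγ => ?_⟩
  rw [mem_mackeySubgroup]
  exact hNU (this.conj_mem _ (hle hγ) g)

/-- The local Mackey map `C(Γ; Coind_U A) ⟶ C(Γ_g; A)`: restrict to `Γ_g`, evaluate at `g`. -/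
noncomputable def mackeyMap {𝒰 : LevelSys G} {𝒱 : LevelSys Γ} (hloc : 𝒱.Compat 𝒰 loc)
    (hU : ∃ N ∈ 𝒰.sets, N ≤ U) (A : Rep.{u} k U) :
    lvlComplex 𝒱 (Rep.res loc (Rep.coind U.subtype A)) ⟶
      lvlComplex (𝒱.restrict (mackeySubgroup loc U g) (mackeySubgroup_open loc U g hloc hU))
        (Rep.res (mackeyLoc loc U g) A) :=
  lvlCochainsMap (mackeySubgroup loc U g).subtype (mackeyEval loc U g A)
    (𝒱.restrict_compat _ _)

/-- `loc_g` is compatible with the level systems. -/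
lemma mackeyLoc_compat {𝒰 : LevelSys G} {𝒱 : LevelSys Γ} (hloc : 𝒱.Compat 𝒰 loc)
    (hU : ∃ N ∈ 𝒰.sets, N ≤ U) :
    (𝒱.restrict (mackeySubgroup loc U g) (mackeySubgroup_open loc U g hloc hU)).Compat
      (𝒰.restrict U hU) (mackeyLoc loc U g) := by
  rintro _ ⟨N, hN, hNU, rfl⟩
  obtain ⟨N', hN', hle⟩ := hloc N hN
  obtain ⟨N₀, hN₀, hN₀le⟩ := mackeySubgroup_open loc U g hloc hU
  obtain ⟨N'', hN'', hle''⟩ := 𝒱.directed N' hN' N₀ hN₀
  have hnorm := 𝒰.normal N hN
  refine ⟨_, ⟨N'', hN'', (hle''.trans inf_le_right).trans hN₀le, rfl⟩, fun γ hγ => ?_⟩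
  rw [Subgroup.mem_comap, Subgroup.mem_subgroupOf, mackeyLoc_coe]
  exact hnorm.conj_mem _ (hle (hle''.trans inf_le_left hγ)) g

end Mackey

/-! ### The pointwise pairing on coinduced modules -/

section Pairing

variable (U : Subgroup G) {A B C : Rep.{u} k U}

/-- The pointwise pairing `Coind A × Coind B → Coind C`. -/
noncomputable def coindPairing (β : RepPairing A B C) :
    RepPairing (Rep.coind U.subtype A) (Rep.coind U.subtype B) (Rep.coind U.subtype C) where
  toLin := LinearMap.mk₂ k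
    (fun f f' => ⟨fun x => β.toLin (f.1 x) (f'.1 x), fun u x => by
      show β.toLin (f.1 (u * x)) (f'.1 (u * x)) = C.ρ u (β.toLin (f.1 x) (f'.1 x))
      rw [← β.equivariant]
      exact congrArg₂ (fun a b => β.toLin a b) (f.2 u x) (f'.2 u x)⟩)
    (fun f₁ f₂ f' => by apply Subtype.ext; funext x; simp)
    (fun c f f' => by apply Subtype.ext; funext x; simp)
    (fun f f₁ f₂ => by apply Subtype.ext; funext x; simp)
    (fun c f f' => by apply Subtype.ext; funext x; simp)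
  equivariant := fun g f f' => by
    apply Subtype.ext
    funext x
    rfl

end Pairing

end Fermat.Agent.H97.Shap
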