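import Fermat.Agent.H97.Shap.Defs

/-!
# P-CFT / FRAME / FR-SHAP (sub-lead helper97): Shapiro block — interface statements

Target of the block: `Fermat.Agent.H13.Cft.ShapiroStatement` (SH-2) and its companions.

| row   | statement                     | content                                                    |
|-------|-------------------------------|------------------------------------------------------------|
| SH-1a | `MapLvlAcyclicStatement`      | `Hⁿ(G; Maplvl(G, A₀)) = 0`, `n ≥ 1` (contracting homotopy) |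
| SH-1b | `SmoothPackageStatement`      | `Maplvl` smooth, `A ↪ Maplvl(G, A)` mono, sub/quotients    |
| SH-1c | `CoindPackageStatement`       | `Coind` smooth, exact, `Coind Maplvl(U) ≅ Maplvl(G)`       |
| SH-DS | `DimShiftStatement`, `DimShiftEqStatement` | abstract dimension shifting                   |
| SH-2b | `ShapiroZeroStatement`        | Shapiro in degree `0`                                      |
| SH-2  | `H13.Cft.ShapiroStatement`    | assembly                                                   |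
| SH-3  | `MackeyStatement`             | local Mackey decomposition                                 |
| SH-4  | `ConjTrivialStatement`, `MackeySquareStatement` | conjugation is trivial on cohomology     |
| SH-5  | `ShapiroCupStatement`         | Shapiro is compatible with cup products (on cochains)      |
| SH-6  | `CoresStatement`              | corestriction, `cor ∘ res = [G : U]`                       |
| SH-7  | `PermCoindStatement`          | `k[G/U] ≅ Coind_U k`                                       |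
-/

set_option autoImplicit false

universe u

open CategoryTheory groupCohomology

namespace Fermat.Agent.H97.Shap

open Fermat.Agent.H13.Cft

/-- **SH-1a** `Hⁿ(G; Maplvl(G, A₀)) = 0` for `n ≥ 1`. -/
def MapLvlAcyclicStatement : Prop :=
  ∀ {k G : Type u} [CommRing k] [Group G] (𝒰 : LevelSys G) (A₀ : Type u) [AddCommGroup A₀]
    [Module k A₀] (n : ℕ), Limits.IsZero (lvlH 𝒰 (mapLvl k 𝒰 A₀) (n + 1))

/-- **SH-1b** The smoothness package: `Maplvl` is smooth, `A ↪ Maplvl(G, A)` is a monomorphism,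
and sub- and quotient modules of smooth modules are smooth. -/
def SmoothPackageStatement : Prop :=
  ∀ {k G : Type u} [CommRing k] [Group G] (𝒰 : LevelSys G),
    (∀ (A₀ : Type u) [AddCommGroup A₀] [Module k A₀], IsSmooth 𝒰 (mapLvl k 𝒰 A₀)) ∧
    (∀ (A : Rep.{u} k G) (hA : IsSmooth 𝒰 A), Mono (mapLvlEmb 𝒰 A hA)) ∧
    (∀ X : ShortComplex (Rep.{u} k G), X.ShortExact → IsSmooth 𝒰 X.X₂ →
      IsSmooth 𝒰 X.X₁ ∧ IsSmooth 𝒰 X.X₃)

/-- **SH-1c** The coinduction package: `Coind_U` preserves smoothness and short exact sequences,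
and `Coind_U Maplvl(U, A₀) ≅ Maplvl(G, A₀)`. -/
def CoindPackageStatement : Prop :=
  ∀ {k G : Type u} [CommRing k] [Group G] (𝒰 : LevelSys G) (U : Subgroup G)
    (hU : ∃ N ∈ 𝒰.sets, N ≤ U),
    (∀ A : Rep.{u} k U, IsSmooth (𝒰.restrict U hU) A → IsSmooth 𝒰 (Rep.coind U.subtype A)) ∧
    (∀ (X : ShortComplex (Rep.{u} k U)) (_ : X.ShortExact),
      ∃ w : Rep.coindMap U.subtype X.f ≫ Rep.coindMap U.subtype X.g = 0,
        (ShortComplex.mk (Rep.coindMap U.subtype X.f) (Rep.coindMap U.subtype X.g) w).ShortExact) ∧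
    (∀ (A₀ : Type u) [AddCommGroup A₀] [Module k A₀],
      Nonempty (Rep.coind U.subtype (mapLvl k (𝒰.restrict U hU) A₀) ≅ mapLvl k 𝒰 A₀))

/-- **SH-DS (a)** Abstract dimension shifting: a natural transformation of cochain-complex valued
functors which are exact on a class `P` of objects and effaceable in positive degrees, and
which is an isomorphism on `H⁰`, is a quasi-isomorphism on `P`. -/
def DimShiftStatement : Prop :=
  ∀ {k : Type u} [CommRing k] {C : Type (u + 1)} [Category.{u} C] [Abelian C] (P : C → Prop)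
    (F F' : C ⥤ CochainComplex (ModuleCat.{u} k) ℕ) (η : F ⟶ F'),
    (∀ {A I Q : C} (f : A ⟶ I) (g : I ⟶ Q) (w : f ≫ g = 0), (ShortComplex.mk f g w).ShortExact →
      P I → ∃ (w₁ : F.map f ≫ F.map g = 0) (w₂ : F'.map f ≫ F'.map g = 0),
        (ShortComplex.mk (F.map f) (F.map g) w₁).ShortExact ∧
        (ShortComplex.mk (F'.map f) (F'.map g) w₂).ShortExact) →
    (∀ A : C, P A → ∃ (I Q : C) (f : A ⟶ I) (g : I ⟶ Q) (w : f ≫ g = 0),
      (ShortComplex.mk f g w).ShortExact ∧ P I ∧ P Q ∧
      ∀ n : ℕ, Limits.IsZero ((F.obj I).homology (n + 1)) ∧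
        Limits.IsZero ((F'.obj I).homology (n + 1))) →
    (∀ A : C, P A → IsIso (HomologicalComplex.homologyMap (η.app A) 0)) →
    ∀ (n : ℕ) (A : C), P A → IsIso (HomologicalComplex.homologyMap (η.app A) n)

/-- **SH-DS (b)** Abstract dimension shifting, uniqueness: two natural transformations which
agree on `H⁰` agree on all `Hⁿ`. -/
def DimShiftEqStatement : Prop :=
  ∀ {k : Type u} [CommRing k] {C : Type (u + 1)} [Category.{u} C] [Abelian C] (P : C → Prop)
    (F F' : C ⥤ CochainComplex (ModuleCat.{u} k) ℕ) (η η' : F ⟶ F'),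
    (∀ {A I Q : C} (f : A ⟶ I) (g : I ⟶ Q) (w : f ≫ g = 0), (ShortComplex.mk f g w).ShortExact →
      P I → ∃ (w₁ : F.map f ≫ F.map g = 0) (w₂ : F'.map f ≫ F'.map g = 0),
        (ShortComplex.mk (F.map f) (F.map g) w₁).ShortExact ∧
        (ShortComplex.mk (F'.map f) (F'.map g) w₂).ShortExact) →
    (∀ A : C, P A → ∃ (I Q : C) (f : A ⟶ I) (g : I ⟶ Q) (w : f ≫ g = 0),
      (ShortComplex.mk f g w).ShortExact ∧ P I ∧ P Q ∧
      ∀ n : ℕ, Limits.IsZero ((F.obj I).homology (n + 1))) →
    (∀ A : C, P A → HomologicalComplex.homologyMap (η.app A) 0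
      = HomologicalComplex.homologyMap (η'.app A) 0) →
    ∀ (n : ℕ) (A : C), P A → HomologicalComplex.homologyMap (η.app A) n
      = HomologicalComplex.homologyMap (η'.app A) n

/-- **SH-2b** Shapiro in degree `0`: `(Coind_U A)^G ≅ A^U`. -/
def ShapiroZeroStatement : Prop :=
  ∀ {k G : Type u} [CommRing k] [Group G] (𝒰 : LevelSys G) (U : Subgroup G)
    (hU : ∃ N ∈ 𝒰.sets, N ≤ U) (A : Rep.{u} k U), IsSmooth (𝒰.restrict U hU) A →
    IsIso (HomologicalComplex.homologyMap (shapiroMap 𝒰 U hU A) 0)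

/-- **SH-4** Conjugation acts trivially on level cohomology. -/
def ConjTrivialStatement : Prop :=
  ∀ {k G : Type u} [CommRing k] [Group G] (𝒰 : LevelSys G) (g : G) (A : Rep.{u} k G),
    IsSmooth 𝒰 A → ∀ n : ℕ, HomologicalComplex.homologyMap (lvlConj 𝒰 g A) n = 𝟙 _

/-- **SH-4'** The Mackey square commutes on cohomology:
`Hⁿ(G; Coind A) → Hⁿ(Γ; Coind A) → Hⁿ(Γ_g; A)` (restriction, then evaluation at `g`) equals
`Hⁿ(G; Coind A) → Hⁿ(U; A) → Hⁿ(Γ_g; A)` (Shapiro, then restriction along `loc_g`). -/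
def MackeySquareStatement : Prop :=
  ∀ {k G Γ : Type u} [CommRing k] [Group G] [Group Γ] (𝒰 : LevelSys G) (𝒱 : LevelSys Γ)
    (loc : Γ →* G) (hloc : 𝒱.Compat 𝒰 loc) (U : Subgroup G) (hU : ∃ N ∈ 𝒰.sets, N ≤ U) (g : G)
    (A : Rep.{u} k U), IsSmooth (𝒰.restrict U hU) A → ∀ n : ℕ,
    HomologicalComplex.homologyMap (lvlRes loc hloc (Rep.coind U.subtype A)) n ≫
        HomologicalComplex.homologyMap (mackeyMap loc U g hloc hU A) n
      = HomologicalComplex.homologyMap (shapiroMap 𝒰 U hU A) n ≫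
        HomologicalComplex.homologyMap
          (lvlRes (mackeyLoc loc U g) (mackeyLoc_compat loc U g hloc hU) A) n

/-- **SH-3** Local Mackey decomposition: for a set `R` of representatives of the double cosets
`U \ G / loc(Γ)`, the product of the Mackey maps
`Hⁿ(Γ; Coind_U A) → ∏_{g ∈ R} Hⁿ(Γ_g; A)` is bijective. -/
def MackeyStatement : Prop :=
  ∀ {k G Γ : Type u} [CommRing k] [Group G] [Group Γ] (𝒰 : LevelSys G) (𝒱 : LevelSys Γ)
    (loc : Γ →* G) (hloc : 𝒱.Compat 𝒰 loc) (U : Subgroup G) (hU : ∃ N ∈ 𝒰.sets, N ≤ U)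
    (R : Set G), (∀ x : G, ∃! g : G, g ∈ R ∧ ∃ (v : U) (γ : Γ), x = v * g * loc γ) →
    ∀ A : Rep.{u} k U, IsSmooth (𝒰.restrict U hU) A → ∀ n : ℕ,
      Function.Bijective
        (fun (z : lvlH 𝒱 (Rep.res loc (Rep.coind U.subtype A)) n) (g : R) =>
          (HomologicalComplex.homologyMap (mackeyMap loc U g.1 hloc hU A) n).hom z)

/-- **SH-5** The Shapiro map is compatible with cup products, on the nose. -/
def ShapiroCupStatement : Prop :=
  ∀ {k G : Type u} [CommRing k] [Group G] (𝒰 : LevelSys G) (U : Subgroup G)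
    (hU : ∃ N ∈ 𝒰.sets, N ≤ U) {A B C : Rep.{u} k U} (β : RepPairing A B C) (i j : ℕ)
    (a : lvlCochains 𝒰 (Rep.coind U.subtype A) i) (y : lvlCochains 𝒰 (Rep.coind U.subtype B) j),
    ((shapiroMap 𝒰 U hU C).f (i + j)).hom (cupLvl 𝒰 (coindPairing U β) i j a y)
      = cupLvl (𝒰.restrict U hU) β i j (((shapiroMap 𝒰 U hU A).f i).hom a)
          (((shapiroMap 𝒰 U hU B).f j).hom y)

/-- **SH-6** Corestriction: a natural family `cor : Hⁿ(U; Res A) → Hⁿ(G; A)` with
`cor ∘ res = [G : U]`. -/
def CoresStatement : Prop :=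
  ∀ {k G : Type u} [CommRing k] [Group G] (𝒰 : LevelSys G) (U : Subgroup G)
    (hU : ∃ N ∈ 𝒰.sets, N ≤ U),
    ∃ cor : ∀ (A : Rep.{u} k G) (n : ℕ),
        lvlH (𝒰.restrict U hU) (Rep.res U.subtype A) n ⟶ lvlH 𝒰 A n,
      (∀ (A : Rep.{u} k G), IsSmooth 𝒰 A → ∀ n : ℕ,
        HomologicalComplex.homologyMap (lvlRes U.subtype (𝒰.restrict_compat U hU) A) n ≫ cor A n
          = U.index • 𝟙 _) ∧
      (∀ {A B : Rep.{u} k G} (f : A ⟶ B) (n : ℕ),
        cor A n ≫ HomologicalComplex.homologyMap (lvlMap 𝒰 f) n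
          = HomologicalComplex.homologyMap
              (lvlMap (𝒰.restrict U hU) ((Rep.resFunctor U.subtype).map f)) n ≫ cor B n)

/-- **SH-7** The permutation module on `G/U` is coinduced from the trivial module. -/
def PermCoindStatement : Prop :=
  ∀ {k G : Type u} [CommRing k] [Group G] (U : Subgroup G) [U.FiniteIndex],
    Nonempty (Rep.ofMulAction k G (G ⧸ U) ≅ Rep.coind U.subtype (Rep.trivial k U k))

end Fermat.Agent.H97.Shap
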