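import Fermat.Agent.H97.Shap.Interfaces

/-!
# P-CFT / FRAME / FR-SHAP: assembly of Shapiro's lemma (SH-2) from the parts
-/

set_option autoImplicit false

universe u

open CategoryTheory groupCohomology

namespace Fermat.Agent.H97.Shap

open Fermat.Agent.H13.Cft

variable {k G : Type u} [CommRing k] [Group G]

/-- Naturality of the Shapiro map. -/
theorem shapiroMap_naturality (𝒰 : LevelSys G) (U : Subgroup G) (hU : ∃ N ∈ 𝒰.sets, N ≤ U)
    {A B : Rep.{u} k U} (f : A ⟶ B) :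
    lvlMap 𝒰 (Rep.coindMap U.subtype f) ≫ shapiroMap 𝒰 U hU B
      = shapiroMap 𝒰 U hU A ≫ lvlMap (𝒰.restrict U hU) f := by
  ext n x : 3
  rfl

/-- The source functor of the Shapiro transformation, `A ↦ C(G; Coind_U A)`. -/
noncomputable def shapSrc (𝒰 : LevelSys G) (U : Subgroup G) :
    Rep.{u} k U ⥤ CochainComplex (ModuleCat.{u} k) ℕ :=
  Rep.coindFunctor k U.subtype ⋙ lvlFunctor 𝒰

/-- The Shapiro natural transformation. -/
noncomputable def shapNat (𝒰 : LevelSys G) (U : Subgroup G) (hU : ∃ N ∈ 𝒰.sets, N ≤ U) :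
    shapSrc (k := k) 𝒰 U ⟶ lvlFunctor (𝒰.restrict U hU) where
  app A := shapiroMap 𝒰 U hU A
  naturality _ _ f := shapiroMap_naturality 𝒰 U hU f

/-- The effacing short exact sequence `0 → A → Maplvl(G, A) → Q → 0`. -/
theorem mapLvlEmb_shortExact (𝒰 : LevelSys G) (A : Rep.{u} k G) (hA : IsSmooth 𝒰 A)
    (hmono : Mono (mapLvlEmb 𝒰 A hA)) :
    (ShortComplex.mk (mapLvlEmb 𝒰 A hA) (Limits.cokernel.π (mapLvlEmb 𝒰 A hA))
      (Limits.cokernel.condition _)).ShortExact :=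
  { exact := ShortComplex.exact_cokernel _
    mono_f := hmono
    epi_g := inferInstance }

/-- **SH-2** Shapiro's lemma for level cohomology, assembled from the parts. -/
theorem shapiro_of_parts (h1a : MapLvlAcyclicStatement.{u}) (h1b : SmoothPackageStatement.{u})
    (h1c : CoindPackageStatement.{u}) (hds : DimShiftStatement.{u})
    (h2b : ShapiroZeroStatement.{u}) (hses : LvlSesStatement.{u}) : ShapiroStatement.{u} := by
  intro k G _ _ 𝒰 U hU A hA n
  obtain ⟨hcs, hce, hci⟩ := h1c (k := k) 𝒰 U hU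
  obtain ⟨hms, hmm, hmq⟩ := h1b (k := k) (𝒰.restrict U hU)
  refine @hds k _ (Rep.{u} k U) _ _ (IsSmooth (𝒰.restrict U hU))
    (shapSrc 𝒰 U) (lvlFunctor (𝒰.restrict U hU)) (shapNat 𝒰 U hU) ?_ ?_ ?_ n A hA
  · intro A I Q f g w hX hI
    obtain ⟨w', hX'⟩ := hce (ShortComplex.mk f g w) hX
    have h1 := hses 𝒰 _ hX' (hcs I hI)
    have h2 := hses (𝒰.restrict U hU) _ hX hI
    exact ⟨_, _, h1, h2⟩
  · intro A hA
    have hX := mapLvlEmb_shortExact (𝒰.restrict U hU) A hA (hmm A hA)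
    have hI := hms A.V
    refine ⟨_, _, _, _, _, hX, hI, (hmq _ hX hI).2,
      fun n => ⟨?_, h1a (k := k) (𝒰.restrict U hU) A.V n⟩⟩
    obtain ⟨e⟩ := hci A.V
    exact (h1a (k := k) 𝒰 A.V n).of_iso
      ((HomologicalComplex.homologyFunctor _ _ (n + 1)).mapIso ((lvlFunctor 𝒰).mapIso e))
  · intro A hA
    exact h2b 𝒰 U hU A hA

end Fermat.Agent.H97.Shap
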