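/-
P-CFT / FR-SHAP (sub-lead helper97): the UNCONDITIONAL Shapiro block.

* `shapiro : H13.Cft.ShapiroStatement`   (the Shapiro map is a quasi-isomorphism on level cochains,
  for smooth coefficients and an open subgroup `U`);
* `coresU : CoresStatement`              (corestriction, `cor ∘ res = [G:U]`);
* re-exports of the other parts, all unconditional:
  `mapLvlAcyclicU`, `smoothPackageU`, `coindPackageU`, `dimShiftU`, `dimShiftEqU`, `shapiroZeroU`,
  `conjTrivialU`, `mackeySquareU`, `shapiroCupU`, `permCoindU`.

Parts by helper4 (SH-1a), helper60 (SH-1bc), helper96 (SH-DS), helper59 (SH-2b), helper73 (SH-4),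
helper94 (SH-5), helper30 (SH-6, SH-7), helper87 (LvlSes); assembly `shapiro_of_parts` by helper97.
-/
import Fermat.Agent.H97.Shap.Assembly
import Fermat.Agent.H4.Shap.MapLvlAcyclic
import Fermat.Agent.H60.Shap.SmoothCoind
import Fermat.Agent.H96.Shap.DimShift
import Fermat.Agent.H59.ShapiroZero
import Fermat.Agent.H87.Cft.LvlSes
import Fermat.Agent.H30.CFT.Cores
import Fermat.Agent.H30.CFT.PermCoind
import Fermat.Agent.H73.ShapConjFinal
import Fermat.Agent.H94.Cft.ShapiroCup

set_option autoImplicit false

universe u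

namespace Fermat.Agent.H97.Shap

/-- **Shapiro's lemma** for level cohomology, unconditional. -/
theorem shapiro : Fermat.Agent.H13.Cft.ShapiroStatement.{u} :=
  shapiro_of_parts Fermat.Agent.H4.Shap.mapLvlAcyclic Fermat.Agent.H60.Shap.smoothPackage
    Fermat.Agent.H60.Shap.coindPackage Fermat.Agent.H96.Shap.dimShift
    Fermat.Agent.H59.Shap.shapiroZero Fermat.Agent.H87.Cft.lvlSes

/-- Corestriction, unconditional. -/
theorem coresU : CoresStatement.{u} := Fermat.Agent.H30.CFT.cores shapiro

theorem mapLvlAcyclicU : MapLvlAcyclicStatement.{u} := Fermat.Agent.H4.Shap.mapLvlAcyclic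
theorem smoothPackageU : SmoothPackageStatement.{u} := Fermat.Agent.H60.Shap.smoothPackage
theorem coindPackageU : CoindPackageStatement.{u} := Fermat.Agent.H60.Shap.coindPackage
theorem dimShiftU : DimShiftStatement.{u} := Fermat.Agent.H96.Shap.dimShift
theorem dimShiftEqU : DimShiftEqStatement.{u} := Fermat.Agent.H96.Shap.dimShiftEq
theorem shapiroZeroU : ShapiroZeroStatement.{u} := Fermat.Agent.H59.Shap.shapiroZero
theorem conjTrivialU : ConjTrivialStatement.{u} := Fermat.Agent.H73.Shap4.conjTrivialU
theorem mackeySquareU : MackeySquareStatement.{u} := Fermat.Agent.H73.Shap4.mackeySquareU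
theorem shapiroCupU : ShapiroCupStatement.{u} := Fermat.Agent.H94.Cft.shapiroCup
theorem permCoindU : PermCoindStatement.{u} := Fermat.Agent.H30.CFT.permCoind

end Fermat.Agent.H97.Shap
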